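import Mathlib
import Fermat.Agent.S16.InvC.Basic

/-!
# S16 / InvC / H / Formula: hedge proof of the one-dimensional Poisson formula
(owner: helper255)

Same statement as `Fermat.Agent.S16.InvC.oneDim_formula`, proved by a different route: the
functional equation of the two-variable Jacobi theta function
`jacobiTheta₂ z τ' = (-i τ')^{-1/2} exp(-π i z² / τ') jacobiTheta₂ (z / τ') (-1 / τ')`
with `τ' = α τ` and `z = α τ (v₀ + l) + μ₀`.  The proof is a term-by-term comparison of exponents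
(no summability is needed: constants are pulled out with `tsum_mul_left`, and the functional
equation of Mathlib holds unconditionally).
-/

set_option autoImplicit false

open Complex
open scoped Real

noncomputable section

namespace Fermat.Agent.S16.InvC.H

/-- One-dimensional Poisson summation (Gaussian, real shift `v₀ + l`, real frequency `μ₀`). -/
theorem oneDim_formula {α : ℝ} (hα : 0 < α) {τ : ℂ} (hτ : 0 < τ.im) (v₀ μ₀ l : ℝ) :
    ∑' n : ℤ, fac α τ v₀ μ₀ l n =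
      kc α τ * ∑' k : ℤ, dfac α τ v₀ μ₀ k * ee ((((k : ℝ) - μ₀) * l : ℝ) : ℂ) := by
  have hα' : (α : ℂ) ≠ 0 := by exact_mod_cast hα.ne'
  have hτ' : τ ≠ 0 := by
    rintro rfl
    simp at hτ
  -- the parameters of the theta function and the constant factor
  set z : ℂ := (α : ℂ) * τ * ((v₀ : ℂ) + (l : ℂ)) + (μ₀ : ℂ) with hz
  set c₀ : ℂ := cexp (π * I * (α : ℂ) * τ * ((v₀ : ℂ) + (l : ℂ)) ^ 2
    + 2 * π * I * (μ₀ : ℂ) * (v₀ : ℂ)) with hc₀
  -- the terms of the left-hand side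
  have hL : ∀ n : ℤ, fac α τ v₀ μ₀ l n = c₀ * jacobiTheta₂_term n z ((α : ℂ) * τ) := by
    intro n
    rw [fac, ee, jacobiTheta₂_term, hc₀, ← Complex.exp_add]
    congr 1
    rw [hz]
    push_cast
    ring
  -- the terms of the right-hand side
  have hR : ∀ k : ℤ, c₀ * (cexp (-π * I * z ^ 2 / ((α : ℂ) * τ)) *
      jacobiTheta₂_term k (z / ((α : ℂ) * τ)) (-1 / ((α : ℂ) * τ))) =
        dfac α τ v₀ μ₀ k * ee ((((k : ℝ) - μ₀) * l : ℝ) : ℂ) := by
    intro k
    rw [dfac, ee, ee, jacobiTheta₂_term, hc₀, ← Complex.exp_add, ← Complex.exp_add,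
      ← Complex.exp_add]
    congr 1
    rw [hz]
    push_cast
    field_simp
    ring
  calc ∑' n : ℤ, fac α τ v₀ μ₀ l n
      = ∑' n : ℤ, c₀ * jacobiTheta₂_term n z ((α : ℂ) * τ) := tsum_congr hL
    _ = c₀ * jacobiTheta₂ z ((α : ℂ) * τ) := by
        rw [tsum_mul_left, jacobiTheta₂]
    _ = c₀ * (1 / (-I * ((α : ℂ) * τ)) ^ (1 / 2 : ℂ) * cexp (-π * I * z ^ 2 / ((α : ℂ) * τ)) *
          jacobiTheta₂ (z / ((α : ℂ) * τ)) (-1 / ((α : ℂ) * τ))) := by
        rw [← jacobiTheta₂_functional_equation]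
    _ = kc α τ * ∑' k : ℤ, c₀ * (cexp (-π * I * z ^ 2 / ((α : ℂ) * τ)) *
          jacobiTheta₂_term k (z / ((α : ℂ) * τ)) (-1 / ((α : ℂ) * τ))) := by
        rw [tsum_mul_left, tsum_mul_left, kc, jacobiTheta₂, mul_assoc (-I) (α : ℂ) τ]
        ring
    _ = kc α τ * ∑' k : ℤ, dfac α τ v₀ μ₀ k * ee ((((k : ℝ) - μ₀) * l : ℝ) : ℂ) := by
        rw [tsum_congr hR]

end Fermat.Agent.S16.InvC.H
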